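import Mathlib.Algebra.DualNumber
import Mathlib.Algebra.TrivSqZeroExt.Basic
import Mathlib.Algebra.Polynomial.Div
import Mathlib.RingTheory.Polynomial.Cyclotomic.Expand
import Mathlib.NumberTheory.NumberField.Cyclotomic.Basic
import Mathlib.RingTheory.RootsOfUnity.CyclotomicUnits

/-!
The Kummer logarithmic derivative modulo `p` of units of `ℤ[ζ_p]`, with values in
`F_p[T]/(T^(p-2))`.
-/

set_option autoImplicit false

namespace FermatAgent.RegularInputs

open Polynomial NumberField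

/-- `F_p[T]/(T^(p-2))`. -/
abbrev TruncRing (p : ℕ) : Type := (ZMod p)[X] ⧸ Ideal.span {(X : (ZMod p)[X]) ^ (p - 2)}

/-- The quotient map onto `TruncRing p`. -/
noncomputable def trunc' (p : ℕ) : (ZMod p)[X] →+* TruncRing p :=
  Ideal.Quotient.mk _

/-- The image `(1+T)(1+ε)` of `ζ`. -/
noncomputable def zetaImage (p : ℕ) : DualNumber (TruncRing p) :=
  TrivSqZeroExt.inl (trunc' p (1 + X)) + TrivSqZeroExt.inr (trunc' p (1 + X))

theorem trunc'_eq_zero_iff {p : ℕ} (P : (ZMod p)[X]) :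
    trunc' p P = 0 ↔ ∀ d < p - 2, P.coeff d = 0 := by
  rw [trunc', Ideal.Quotient.eq_zero_iff_mem, Ideal.mem_span_singleton, X_pow_dvd_iff]

theorem fst_zetaImage_pow (p i : ℕ) :
    TrivSqZeroExt.fst (zetaImage p ^ i) = trunc' p ((1 + X) ^ i) := by
  simp [zetaImage]

theorem snd_zetaImage_pow (p i : ℕ) :
    TrivSqZeroExt.snd (zetaImage p ^ i) = trunc' p ((i : (ZMod p)[X]) * (1 + X) ^ i) := by
  cases i with
  | zero => simp
  | succ n =>
    rw [TrivSqZeroExt.snd_pow, Nat.pred_succ]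
    simp [zetaImage, pow_succ]

theorem trunc'_X_pow_eq_zero {p i : ℕ} (h : p - 2 ≤ i) : trunc' p (X ^ i) = 0 :=
  (trunc'_eq_zero_iff _).mpr fun d hd ↦ by rw [coeff_X_pow, if_neg]; omega

variable {p : ℕ} [hp : Fact p.Prime]

theorem aeval_zetaImage (h3 : 3 ≤ p) :
    aeval (zetaImage p) (cyclotomic p ℤ) = 0 := by
  have h1 : cyclotomic p (ZMod p) = (X - 1) ^ (p - 1) := by
    have := cyclotomic_mul_prime_eq_pow_of_not_dvd (ZMod p) (p := p) (n := 1)
      hp.out.not_dvd_one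
    rwa [one_mul, cyclotomic_one] at this
  have h2 : aeval (zetaImage p) (cyclotomic p ℤ) =
      aeval (zetaImage p) (cyclotomic p (ZMod p)) := by
    rw [← map_cyclotomic_int p (ZMod p), aeval_def, aeval_def, eval₂_map]
    congr 1
  rw [h2, h1, map_pow, map_sub, aeval_X, map_one]
  ext
  · rw [TrivSqZeroExt.fst_pow]
    simp only [zetaImage, TrivSqZeroExt.fst_sub, TrivSqZeroExt.fst_add, TrivSqZeroExt.fst_inl,
      TrivSqZeroExt.fst_inr, TrivSqZeroExt.fst_one, TrivSqZeroExt.fst_zero, add_zero, map_add,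
      map_one, add_sub_cancel_left, ← map_pow]
    exact trunc'_X_pow_eq_zero (by omega)
  · rw [TrivSqZeroExt.snd_pow]
    simp only [zetaImage, TrivSqZeroExt.fst_sub, TrivSqZeroExt.fst_add, TrivSqZeroExt.fst_inl,
      TrivSqZeroExt.fst_inr, TrivSqZeroExt.fst_one, TrivSqZeroExt.snd_zero, add_zero, map_add,
      map_one, add_sub_cancel_left, ← map_pow]
    rw [trunc'_X_pow_eq_zero (by rw [Nat.pred_eq_sub_one]; omega)]
    simp

variable {K : Type*} [Field K] [NumberField K] [IsCyclotomicExtension {p} ℚ K] {ζ : K}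

/-- The ring map `𝓞 K → (F_p[T]/T^(p-2))[ε]` sending `ζ` to `(1+T)(1+ε)`. -/
noncomputable def toDual (hζ : IsPrimitiveRoot ζ p) (h3 : 3 ≤ p) :
    𝓞 K →ₐ[ℤ] DualNumber (TruncRing p) :=
  hζ.integralPowerBasis.lift (zetaImage p) (by
    rw [hζ.integralPowerBasis_gen, ← RingOfIntegers.minpoly_coe]
    exact (congrArg (aeval (zetaImage p)) (cyclotomic_eq_minpoly hζ hp.out.pos)).symm.trans
      (aeval_zetaImage h3))

theorem toDual_zeta (hζ : IsPrimitiveRoot ζ p) (h3 : 3 ≤ p) :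
    toDual hζ h3 hζ.toInteger = zetaImage p := by
  have h := PowerBasis.lift_gen hζ.integralPowerBasis (zetaImage p) (by
    rw [hζ.integralPowerBasis_gen, ← RingOfIntegers.minpoly_coe]
    exact (congrArg (aeval (zetaImage p)) (cyclotomic_eq_minpoly hζ hp.out.pos)).symm.trans
      (aeval_zetaImage h3))
  simpa [toDual] using h

/-- The logarithmic derivative of a unit. -/
noncomputable def logDeriv' (hζ : IsPrimitiveRoot ζ p) (h3 : 3 ≤ p) (u : (𝓞 K)ˣ) :
    TruncRing p :=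
  TrivSqZeroExt.snd (toDual hζ h3 u) * TrivSqZeroExt.fst (toDual hζ h3 ↑u⁻¹)

theorem fst_mul_fst_inv (hζ : IsPrimitiveRoot ζ p) (h3 : 3 ≤ p) (u : (𝓞 K)ˣ) :
    TrivSqZeroExt.fst (toDual hζ h3 u) * TrivSqZeroExt.fst (toDual hζ h3 ↑u⁻¹) = 1 := by
  rw [← TrivSqZeroExt.fst_mul, ← map_mul, Units.mul_inv, map_one, TrivSqZeroExt.fst_one]

theorem logDeriv'_mul (hζ : IsPrimitiveRoot ζ p) (h3 : 3 ≤ p) (x y : (𝓞 K)ˣ) :
    logDeriv' hζ h3 (x * y) = logDeriv' hζ h3 x + logDeriv' hζ h3 y := by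
  simp only [logDeriv', mul_inv_rev, Units.val_mul, map_mul, DualNumber.snd_mul,
    TrivSqZeroExt.fst_mul]
  linear_combination
    TrivSqZeroExt.snd (toDual hζ h3 x) * TrivSqZeroExt.fst (toDual hζ h3 ↑x⁻¹) *
      fst_mul_fst_inv hζ h3 y +
    TrivSqZeroExt.snd (toDual hζ h3 y) * TrivSqZeroExt.fst (toDual hζ h3 ↑y⁻¹) *
      fst_mul_fst_inv hζ h3 x

theorem logDeriv'_eq_zero_of_dvd (hζ : IsPrimitiveRoot ζ p) (h3 : 3 ≤ p) (u : (𝓞 K)ˣ) (n : ℤ)
    (h : (p : 𝓞 K) ∣ (u : 𝓞 K) - n) : logDeriv' hζ h3 u = 0 := by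
  obtain ⟨c, hc⟩ := h
  have hp0 : ((p : ℕ) : TruncRing p) = 0 := by
    rw [← map_natCast (trunc' p), ← C_eq_natCast, ZMod.natCast_self, C_0, map_zero]
  have h1 : TrivSqZeroExt.snd (toDual hζ h3 u) = 0 := by
    rw [show (u : 𝓞 K) = n + p * c by linear_combination hc, map_add, map_mul, map_intCast,
      map_natCast, TrivSqZeroExt.snd_add, DualNumber.snd_mul, TrivSqZeroExt.snd_intCast,
      TrivSqZeroExt.fst_natCast, TrivSqZeroExt.snd_natCast, hp0]
    ring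
  rw [logDeriv', h1, zero_mul]

theorem logDeriv'_eq_of_snd_eq (hζ : IsPrimitiveRoot ζ p) (h3 : 3 ≤ p) (u : (𝓞 K)ˣ)
    (d : TruncRing p)
    (h : TrivSqZeroExt.snd (toDual hζ h3 u) = d * TrivSqZeroExt.fst (toDual hζ h3 u)) :
    logDeriv' hζ h3 u = d := by
  rw [logDeriv', h, mul_assoc, fst_mul_fst_inv, mul_one]

end FermatAgent.RegularInputs
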