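import Mathlib.Algebra.Field.ZMod
import Mathlib.GroupTheory.QuotientGroup.Basic
import Mathlib.LinearAlgebra.LinearIndependent.Defs
import Mathlib.Data.Fintype.EquivFin

/-!
A counting lemma: if a commutative group is generated modulo `p`-th powers by `n` elements and a
homomorphism to an `F_p`-module sends `n` elements to independent ones, then its kernel consists
of `p`-th powers.
-/

set_option autoImplicit false

namespace FermatAgent.RegularInputs

variable {p : ℕ} [hp : Fact p.Prime]

theorem exists_val_prod {U ι : Type*} [CommGroup U] [Fintype ι] (g : ι → U) (e : ι → ℤ) :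
    ∃ w : U, ∏ i, g i ^ e i = (∏ i, g i ^ ((e i : ZMod p).val)) * w ^ p := by
  refine ⟨∏ i, g i ^ (e i / p), ?_⟩
  rw [← Finset.prod_pow, ← Finset.prod_mul_distrib]
  refine Finset.prod_congr rfl fun i _ ↦ ?_
  rw [← zpow_natCast, ← zpow_natCast, ← zpow_mul, ← zpow_add, ZMod.val_intCast]
  congr 1
  exact (Int.emod_add_ediv_mul (e i) p).symm

theorem exists_pow_eq_of_apply_eq_zero {U V ι κ : Type*} [CommGroup U] [AddCommGroup V]
    [Module (ZMod p) V] [Fintype ι] [Fintype κ] (hcard : Fintype.card ι = Fintype.card κ)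
    (D : U → V) (hD : ∀ x y, D (x * y) = D x + D y) (gen : ι → U)
    (hgen : ∀ u, ∃ (e : ι → ℤ) (w : U), u = (∏ i, gen i ^ e i) * w ^ p)
    (g : κ → U) (hind : LinearIndependent (ZMod p) fun k ↦ D (g k))
    (u : U) (hu : D u = 0) : ∃ v : U, v ^ p = u := by
  classical
  let N : Subgroup U := (powMonoidHom p : U →* U).range
  have hN : ∀ w : U, QuotientGroup.mk' N (w ^ p) = 1 := fun w ↦
    (QuotientGroup.eq_one_iff _).mpr ⟨w, rfl⟩
  let D' : U →* Multiplicative V := MonoidHom.mk' (fun x ↦ Multiplicative.ofAdd (D x))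
    fun x y ↦ by rw [hD, ofAdd_add]
  have hker : ∀ w : U, D' (w ^ p) = 1 := fun w ↦ by
    rw [map_pow]
    apply Multiplicative.toAdd.injective
    rw [toAdd_pow, toAdd_one, ← Nat.cast_smul_eq_nsmul (ZMod p), ZMod.natCast_self, zero_smul]
  have hval : ∀ e : κ → ZMod p,
      Multiplicative.toAdd (D' (∏ k, g k ^ (e k).val)) = ∑ k, e k • D (g k) := fun e ↦ by
    rw [map_prod, toAdd_prod]
    refine Finset.sum_congr rfl fun k _ ↦ ?_
    rw [map_pow, toAdd_pow, ← Nat.cast_smul_eq_nsmul (ZMod p), ZMod.natCast_zmod_val]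
    rfl
  -- generators give a surjection onto the quotient, independent elements give an injection
  let f : (ι → ZMod p) → U ⧸ N := fun e ↦ QuotientGroup.mk' N (∏ i, gen i ^ (e i).val)
  let h : (κ → ZMod p) → U ⧸ N := fun e ↦ QuotientGroup.mk' N (∏ k, g k ^ (e k).val)
  have hf : Function.Surjective f := fun x ↦ by
    obtain ⟨y, rfl⟩ := QuotientGroup.mk'_surjective N x
    obtain ⟨e, w, rfl⟩ := hgen y
    obtain ⟨w', hw'⟩ := exists_val_prod (p := p) gen e
    refine ⟨fun i ↦ (e i : ZMod p), ?_⟩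
    rw [hw', map_mul, map_mul, hN, hN, mul_one, mul_one]
  have hh : Function.Injective h := fun e e' hee ↦ by
    obtain ⟨z, hz, hz'⟩ := (QuotientGroup.mk'_eq_mk' N).mp hee
    obtain ⟨w, rfl⟩ := hz
    have h1 := congr(Multiplicative.toAdd (D' $hz'))
    rw [powMonoidHom_apply, map_mul, hker, mul_one, hval, hval] at h1
    have h2 : ∑ k, (e k - e' k) • D (g k) = 0 := by
      simp [sub_smul, Finset.sum_sub_distrib, h1]
    funext k
    exact sub_eq_zero.mp (Fintype.linearIndependent_iff.mp hind (fun k ↦ e k - e' k) h2 k)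
  have : Fintype (U ⧸ N) := Fintype.ofSurjective f hf
  have hle : Fintype.card (U ⧸ N) ≤ Fintype.card (κ → ZMod p) :=
    (Fintype.card_le_of_surjective f hf).trans_eq (by simp [hcard])
  have hbij : Function.Bijective h := (Fintype.bijective_iff_injective_and_card h).mpr
    ⟨hh, le_antisymm (Fintype.card_le_of_injective h hh) hle⟩
  obtain ⟨e, he⟩ := hbij.2 (QuotientGroup.mk' N u)
  obtain ⟨z, hz, hz'⟩ := (QuotientGroup.mk'_eq_mk' N).mp he
  obtain ⟨w, rfl⟩ := hz
  have h1 := congr(Multiplicative.toAdd (D' $hz'))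
  rw [powMonoidHom_apply, map_mul, hker, mul_one, hval] at h1
  have he0 : e = 0 := funext (Fintype.linearIndependent_iff.mp hind e (h1.trans hu))
  refine ⟨w, ?_⟩
  subst he0
  simpa using hz'

end FermatAgent.RegularInputs
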