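import Mathlib.NumberTheory.NumberField.Units.DirichletTheorem
import Mathlib.NumberTheory.NumberField.Cyclotomic.Embeddings
import Fermat.Agent.RegularInputs.PowerTrick
import Fermat.Agent.RegularInputs.LogDeriv
import Fermat.Agent.Regular.Interface

/-!
Kummer's unit lemma for `p = 5, 7, 11, 13`, certified by the coefficients of the logarithmic
derivatives of the cyclotomic units modulo `p`.
-/

set_option autoImplicit false

namespace FermatAgent.RegularInputs

open Polynomial NumberField TrivSqZeroExt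

variable {p : ℕ} [hp : Fact p.Prime] {K : Type*} [Field K] [NumberField K]
  [IsCyclotomicExtension {p} ℚ K] {ζ : K}

/-- `ζ` as a unit. -/
noncomputable def zetaU (hζ : IsPrimitiveRoot ζ p) : (𝓞 K)ˣ :=
  (hζ.toInteger_isPrimitiveRoot.isUnit hp.out.ne_zero).unit

/-- The polynomial with the given coefficients. -/
noncomputable def ofCoeffs {m : ℕ} (c : Fin m → ZMod p) : (ZMod p)[X] :=
  ∑ i, C (c i) * X ^ (i : ℕ)

theorem coeff_ofCoeffs {m : ℕ} (c : Fin m → ZMod p) (k : Fin m) :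
    (ofCoeffs c).coeff k = c k := by
  simp [ofCoeffs, finsetSum_coeff, Fin.val_inj]

theorem coeff_sum_one_add_X_pow (a k : ℕ) :
    (∑ i ∈ Finset.range a, (1 + X : (ZMod p)[X]) ^ i).coeff k =
      ∑ i ∈ Finset.range a, ((i.choose k : ℕ) : ZMod p) := by
  simp [finsetSum_coeff, coeff_one_add_X_pow]

theorem coeff_sum_mul_one_add_X_pow (a k : ℕ) :
    (∑ i ∈ Finset.range a, (i : (ZMod p)[X]) * (1 + X) ^ i).coeff k =
      ∑ i ∈ Finset.range a, ((i * i.choose k : ℕ) : ZMod p) := by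
  simp [finsetSum_coeff, coeff_one_add_X_pow, coeff_natCast_mul]

omit hp [NumberField K] [IsCyclotomicExtension {p} ℚ K] in
theorem neg_one_eq_pow (hodd : Odd p) : (-1 : (𝓞 K)ˣ) = (-1 : (𝓞 K)ˣ) ^ p :=
  (hodd.neg_one_pow).symm

/-- Modulo `p`-th powers, units are generated by `ζ` and a fundamental system. -/
theorem units_generated (hζ : IsPrimitiveRoot ζ p) (hodd : Odd p) (u : (𝓞 K)ˣ) :
    ∃ (e : Option (Fin (Units.rank K)) → ℤ) (w : (𝓞 K)ˣ),
      u = (∏ i, (i.elim (zetaU hζ) (Units.fundSystem K)) ^ e i) * w ^ p := by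
  obtain ⟨⟨⟨t, ht⟩, e⟩, he, -⟩ := Units.exist_unique_eq_mul_prod K u
  have htf : IsOfFinOrder ((t : 𝓞 K) : K) := by
    obtain ⟨n, hn, hn1⟩ := isOfFinOrder_iff_pow_eq_one.mp ht
    refine isOfFinOrder_iff_pow_eq_one.mpr ⟨n, hn, ?_⟩
    simpa using congrArg (fun x : (𝓞 K)ˣ ↦ ((x : 𝓞 K) : K)) hn1
  obtain ⟨s, -, hs⟩ := hζ.exists_pow_or_neg_mul_pow_of_isOfFinOrder hodd htf
  obtain ⟨w, hw⟩ : ∃ w : (𝓞 K)ˣ, t = zetaU hζ ^ (s : ℤ) * w ^ p := by
    rcases hs with h | h
    · exact ⟨1, Units.ext (RingOfIntegers.ext (by simpa [zetaU] using h))⟩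
    · refine ⟨-1, ?_⟩
      rw [← neg_one_eq_pow hodd]
      exact Units.ext (RingOfIntegers.ext (by simpa [zetaU] using h))
  refine ⟨fun i ↦ i.elim (s : ℤ) e, w, ?_⟩
  rw [he, Fintype.prod_option]
  simp only [Option.elim_none, Option.elim_some, hw]
  ac_rfl

/-- **Kummer's unit lemma from a certificate.** `d j` lists the coefficients of the logarithmic
derivative of `(ζ^(j+2)-1)/(ζ-1)`, and `L` is a left inverse of the resulting matrix. -/
theorem kummerUnitLemma_of_certificate (r : ℕ) (hr : 2 * r + 3 = p)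
    (d : Fin r → Fin (p - 2) → ZMod p) (L : Fin (p - 2) → Fin (r + 1) → ZMod p)
    (hd : ∀ (j : Fin r) (k : Fin (p - 2)),
      ∑ l : Fin (p - 2), (if l ≤ k then
          d j l * ∑ i ∈ Finset.range ((j : ℕ) + 2), ((i.choose ((k : ℕ) - l) : ℕ) : ZMod p)
        else 0) = ∑ i ∈ Finset.range ((j : ℕ) + 2), ((i * i.choose k : ℕ) : ZMod p))
    (hL : ∀ j j' : Fin (r + 1),
      ∑ k : Fin (p - 2), (Fin.cons (fun k : Fin (p - 2) ↦ if (k : ℕ) = 0 then 1 else 0) d :
        Fin (r + 1) → Fin (p - 2) → ZMod p) j k * L k j' = if j = j' then 1 else 0) :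
    Regular.KummerUnitLemma p (𝓞 K) := by
  intro u hu
  have h3 : 3 ≤ p := by omega
  have hodd : Odd p := ⟨r + 1, by omega⟩
  have hζ := IsCyclotomicExtension.zeta_spec p ℚ K
  have hunit : ∀ j : Fin r, IsUnit (∑ i ∈ Finset.range ((j : ℕ) + 2), hζ.toInteger ^ i) :=
    fun j ↦ hζ.toInteger_isPrimitiveRoot.geom_sum_isUnit hp.out.two_le
      ((hp.out.coprime_iff_not_dvd.mpr fun h ↦ by
        have := Nat.le_of_dvd (by omega) h
        omega).symm)
  let D : (𝓞 K)ˣ → TruncRing p := logDeriv' hζ h3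
  let g : Fin (r + 1) → (𝓞 K)ˣ := Fin.cons (zetaU hζ) fun j ↦ (hunit j).unit
  let c : Fin (r + 1) → Fin (p - 2) → ZMod p :=
    Fin.cons (fun k : Fin (p - 2) ↦ if (k : ℕ) = 0 then 1 else 0) d
  have hg : ∀ j, D (g j) = trunc' p (ofCoeffs (c j)) := by
    refine Fin.cases ?_ (fun j ↦ ?_)
    · refine logDeriv'_eq_of_snd_eq hζ h3 _ _ ?_
      have h1 : trunc' p (ofCoeffs (c 0)) = 1 := by
        rw [← map_one (trunc' p), ← sub_eq_zero, ← map_sub, trunc'_eq_zero_iff]
        intro k hk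
        rw [coeff_sub, coeff_ofCoeffs (c 0) ⟨k, hk⟩]
        simp [c, coeff_one]
      rw [h1, one_mul]
      simp [g, zetaU, toDual_zeta, zetaImage]
    · refine logDeriv'_eq_of_snd_eq hζ h3 _ _ ?_
      simp only [g, c, Fin.cons_succ, IsUnit.unit_spec, map_sum, map_pow, toDual_zeta,
        TrivSqZeroExt.snd_sum, TrivSqZeroExt.fst_sum, snd_zetaImage_pow, fst_zetaImage_pow]
      simp only [← map_pow, ← map_sum, ← map_mul]
      rw [eq_comm, ← sub_eq_zero, ← map_sub, trunc'_eq_zero_iff]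
      intro k hk
      rw [coeff_sub, sub_eq_zero, coeff_sum_mul_one_add_X_pow, ← hd j ⟨k, hk⟩, coeff_mul,
        Finset.Nat.sum_antidiagonal_eq_sum_range_succ_mk]
      simp_rw [coeff_sum_one_add_X_pow]
      rw [Finset.sum_ite, Finset.sum_const_zero, add_zero]
      refine Finset.sum_bij' (fun l hl ↦ (⟨l, by simp only [Finset.mem_range] at hl; omega⟩ : Fin (p - 2)))
        (fun l _ ↦ (l : ℕ)) ?_ ?_ ?_ ?_ ?_
      · intro l hl
        simp only [Finset.mem_range] at hl
        simp [Fin.le_def]; omega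
      · intro l hl
        simp only [Finset.mem_filter, Fin.le_def] at hl
        simp only [Finset.mem_range]
        omega
      · intros; rfl
      · intros; rfl
      · intro l hl
        simp only [Finset.mem_range] at hl
        rw [← coeff_ofCoeffs (d j) ⟨l, by omega⟩]
  have hind : LinearIndependent (ZMod p) fun j ↦ D (g j) := by
    rw [Fintype.linearIndependent_iff]
    intro e he j'
    have h0 : trunc' p (∑ j, C (e j) * ofCoeffs (c j)) = 0 := by
      rw [← he, map_sum]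
      refine Finset.sum_congr rfl fun j _ ↦ ?_
      rw [hg, ← smul_eq_C_mul]
      rfl
    have h1 : ∀ k : Fin (p - 2), ∑ j, e j * c j k = 0 := fun k ↦ by
      have := (trunc'_eq_zero_iff _).mp h0 k k.isLt
      simpa [finsetSum_coeff, coeff_C_mul, coeff_ofCoeffs] using this
    have h2 : ∑ j, e j * ∑ k, c j k * L k j' = 0 := by
      simp_rw [Finset.mul_sum]
      rw [Finset.sum_comm]
      simp_rw [← mul_assoc, ← Finset.sum_mul, h1, zero_mul, Finset.sum_const_zero]
    simpa [c, hL] using h2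
  have hrank : Units.rank K + 1 = r + 1 := by
    rw [Units.rank, InfinitePlace.card_eq_nrRealPlaces_add_nrComplexPlaces,
      IsCyclotomicExtension.Rat.nrRealPlaces_eq_zero (n := p) K (by omega),
      IsCyclotomicExtension.Rat.nrComplexPlaces_eq_totient_div_two p K, Nat.totient_prime hp.out]
    omega
  obtain ⟨n, hn⟩ := hu
  exact exists_pow_eq_of_apply_eq_zero (by simp [hrank]) D (logDeriv'_mul hζ h3) _
    (units_generated hζ hodd) g hind u (logDeriv'_eq_zero_of_dvd hζ h3 u n hn)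

end FermatAgent.RegularInputs
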