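import Mathlib.NumberTheory.NumberField.Cyclotomic.Ideal
import Mathlib.Algebra.Polynomial.SpecificDegree
import Mathlib.Tactic.LinearCombination
import Mathlib.Tactic.NormNum.Prime

/-!
Explicit principal prime ideals of small norm in the cyclotomic fields of conductor 11 and 13.
Each one is given by a certificate made of polynomial identities in `ζ`.
-/

set_option autoImplicit false

namespace FermatAgent.RegularInputs

open Polynomial NumberField Ideal

/-- There is a principal prime ideal of `𝓞 K` above the rational prime `q`. -/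
def HasPrincipalPrime (K : Type*) [Field K] (q : ℕ) : Prop :=
  ∃ P ∈ primesOver (span {(q : ℤ)}) (𝓞 K), Submodule.IsPrincipal P

variable {p : ℕ} [hp : Fact p.Prime] {K : Type*} [Field K] [NumberField K]
  [IsCyclotomicExtension {p} ℚ K] {ζ : K}

omit [IsCyclotomicExtension {p} ℚ K] in
theorem minpoly_toInteger (hζ : IsPrimitiveRoot ζ p) :
    minpoly ℤ hζ.toInteger = cyclotomic p ℤ := by
  rw [← RingOfIntegers.minpoly_coe]
  exact (cyclotomic_eq_minpoly hζ hp.out.pos).symm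

omit [NumberField K] [IsCyclotomicExtension {p} ℚ K] in
theorem sum_range_eq_zero (hζ : IsPrimitiveRoot ζ p) :
    ∑ i ∈ Finset.range p, hζ.toInteger ^ i = 0 :=
  hζ.toInteger_isPrimitiveRoot.geom_sum_eq_zero hp.out.one_lt

/-- A prime ideal `(q, Q(ζ))` is generated by `α` as soon as `α` divides `q` and `Q(ζ)` and is
itself a combination of them. -/
theorem exists_principal (hζ : IsPrimitiveRoot ζ p) (q : ℕ) [Fact q.Prime] (Q : ℤ[X])
    (hmon : Q.Monic) (hirr : Irreducible (Q.map (Int.castRingHom (ZMod q))))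
    (hdvd : Q.map (Int.castRingHom (ZMod q)) ∣ cyclotomic p (ZMod q))
    (α β γ u v : 𝓞 K) (h₁ : (q : 𝓞 K) = α * β) (h₂ : aeval hζ.toInteger Q = α * γ)
    (h₃ : α = u * q + v * aeval hζ.toInteger Q) : HasPrincipalPrime K q := by
  have hexp : ¬ q ∣ RingOfIntegers.exponent hζ.toInteger := by
    rw [RingOfIntegers.exponent_eq_one_iff.mpr
      (IsCyclotomicExtension.Rat.adjoin_singleton_eq_top hζ)]
    exact (Fact.out : q.Prime).not_dvd_one
  have hQ : Q.map (Int.castRingHom (ZMod q)) ∈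
      RingOfIntegers.monicFactorsMod hζ.toInteger q := by
    rw [Multiset.mem_toFinset, Polynomial.mem_normalizedFactors_iff
      (map_monic_ne_zero (minpoly.monic (hζ.toInteger).isIntegral))]
    refine ⟨hirr, hmon.map _, ?_⟩
    rwa [minpoly_toInteger hζ, map_cyclotomic_int]
  refine ⟨_, ((NumberField.Ideal.primesOverSpanEquivMonicFactorsMod hexp).symm ⟨_, hQ⟩).2, ?_⟩
  rw [NumberField.Ideal.primesOverSpanEquivMonicFactorsMod_symm_apply_eq_span hexp hQ]
  refine ⟨α, le_antisymm ?_ ?_⟩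
  · rw [submodule_span_eq, span_le]
    rintro x (rfl | rfl)
    · exact mem_span_singleton.mpr ⟨β, h₁⟩
    · exact mem_span_singleton.mpr ⟨γ, h₂⟩
  · rw [submodule_span_eq, span_singleton_le_iff_mem]
    exact mem_span_pair.mpr ⟨u, v, h₃.symm⟩

theorem irreducible_linear (q : ℕ) [Fact q.Prime] (a : ℤ) :
    Irreducible ((X - C a).map (Int.castRingHom (ZMod q))) := by
  simpa using irreducible_X_sub_C ((a : ZMod q))

theorem dvd_cyclotomic_linear (p q : ℕ) [Fact p.Prime] [Fact q.Prime] (a : ℤ)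
    (h : ∑ i ∈ Finset.range p, (a : ZMod q) ^ i = 0) :
    (X - C a).map (Int.castRingHom (ZMod q)) ∣ cyclotomic p (ZMod q) := by
  rw [Polynomial.map_sub, map_X, map_C, dvd_iff_isRoot, cyclotomic_prime, IsRoot.def]
  simpa [eval_finsetSum] using h

theorem fact_prime_11 : Fact (Nat.Prime 11) := ⟨by norm_num⟩

theorem fact_prime_13 : Fact (Nat.Prime 13) := ⟨by norm_num⟩

theorem fact_prime_23 : Fact (Nat.Prime 23) := ⟨by norm_num⟩

theorem fact_prime_53 : Fact (Nat.Prime 53) := ⟨by norm_num⟩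

theorem fact_prime_79 : Fact (Nat.Prime 79) := ⟨by norm_num⟩

theorem fact_prime_131 : Fact (Nat.Prime 131) := ⟨by norm_num⟩

theorem fact_prime_157 : Fact (Nat.Prime 157) := ⟨by norm_num⟩

attribute [local instance] fact_prime_11 fact_prime_13 fact_prime_23 fact_prime_53 fact_prime_79 fact_prime_131 fact_prime_157 Nat.fact_prime_three

theorem irreducible_cubic_three :
    Irreducible ((X ^ 3 + C 2 * X + C 2 : ℤ[X]).map (Int.castRingHom (ZMod 3))) := by
  have hd : ((X ^ 3 + C 2 * X + C 2 : ℤ[X]).map (Int.castRingHom (ZMod 3))).natDegree = 3 := by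
    simp only [Polynomial.map_add, Polynomial.map_mul, Polynomial.map_pow, map_X, map_C]
    compute_degree!
  rw [irreducible_iff_roots_eq_zero_of_degree_le_three (by omega) (by omega),
    Multiset.eq_zero_iff_forall_notMem]
  intro x hx
  have hx0 : x ^ 3 + 2 * x + 2 = 0 := by
    have h := (mem_roots'.mp hx).2
    simpa [IsRoot.def, map_ofNat] using h
  clear hx hd
  revert x; decide

theorem cubic_dvd_cyclotomic_three :
    (X ^ 3 + C 2 * X + C 2 : ℤ[X]).map (Int.castRingHom (ZMod 3)) ∣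
      cyclotomic 13 (ZMod 3) := by
  have h3 : (3 : (ZMod 3)[X]) = 0 := by
    rw [← C_ofNat, show (3 : ZMod 3) = 0 from rfl, C_0]
  refine ⟨2 + 2 * X ^ 2 + 2 * X ^ 3 + X ^ 5 + 2 * X ^ 7 + X ^ 8 + X ^ 9, ?_⟩
  rw [cyclotomic_prime]
  simp only [Finset.sum_range_succ, Finset.sum_range_zero, Polynomial.map_add,
    Polynomial.map_mul, Polynomial.map_pow, map_X, map_ofNat, Polynomial.map_ofNat]
  linear_combination (-(1 + X + X ^ 2 + 3 * X ^ 3 + X ^ 4 + X ^ 5 + X ^ 6 + X ^ 7 +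
    2 * X ^ 8 + X ^ 9 + X ^ 10) : (ZMod 3)[X]) * h3

theorem exists_principal_11_23 (K : Type*) [Field K] [NumberField K]
    [IsCyclotomicExtension {11} ℚ K] : HasPrincipalPrime K 23 := by
  have hζ := IsCyclotomicExtension.zeta_spec 11 ℚ K
  have hz := sum_range_eq_zero hζ
  simp only [Finset.sum_range_succ, Finset.sum_range_zero, zero_add] at hz
  generalize hzdef : hζ.toInteger = z at hz
  refine exists_principal hζ 23 (X - C 4) (monic_X_sub_C _) (irreducible_linear _ _)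
      (dvd_cyclotomic_linear _ _ _ (by decide)) ((1) * z ^ 0 + (1) * z ^ 1 + (1) * z ^ 3) ((-2) * z ^ 0 + (-14) * z ^ 1 + (-17) * z ^ 2 + (-12) * z ^ 3 + (-5) * z ^ 4 + (-9) * z ^ 5 + (-10) * z ^ 6 + (-16) * z ^ 7 + (-6) * z ^ 8 + (-15) * z ^ 9)
      ((1) * z ^ 0 + (3) * z ^ 1 + (3) * z ^ 2 + (2) * z ^ 3 + (1) * z ^ 4 + (2) * z ^ 5 + (2) * z ^ 6 + (3) * z ^ 7 + (1) * z ^ 8 + (3) * z ^ 9) ((3) * z ^ 0) ((17) * z ^ 0 + (4) * z ^ 1 + (1) * z ^ 2)
      (by linear_combination ((25) * z ^ 0 + (-9) * z ^ 1 + (15) * z ^ 2) * hz)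
      (by simp [hzdef, map_ofNat]; linear_combination ((-5) * z ^ 0 + (2) * z ^ 1 + (-3) * z ^ 2) * hz)
      (by simp [hzdef, map_ofNat]; ring)

theorem exists_principal_13_53 (K : Type*) [Field K] [NumberField K]
    [IsCyclotomicExtension {13} ℚ K] : HasPrincipalPrime K 53 := by
  have hζ := IsCyclotomicExtension.zeta_spec 13 ℚ K
  have hz := sum_range_eq_zero hζ
  simp only [Finset.sum_range_succ, Finset.sum_range_zero, zero_add] at hz
  generalize hzdef : hζ.toInteger = z at hz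
  refine exists_principal hζ 53 (X - C 36) (monic_X_sub_C _) (irreducible_linear _ _)
      (dvd_cyclotomic_linear _ _ _ (by decide)) ((1) * z ^ 0 + (1) * z ^ 1 + (1) * z ^ 3) ((1) * z ^ 0 + (-24) * z ^ 1 + (-35) * z ^ 2 + (-25) * z ^ 3 + (-10) * z ^ 4 + (-14) * z ^ 5 + (-20) * z ^ 6 + (-29) * z ^ 7 + (-16) * z ^ 8 + (-23) * z ^ 9 + (-7) * z ^ 10 + (-36) * z ^ 11)
      ((17) * z ^ 1 + (24) * z ^ 2 + (17) * z ^ 3 + (7) * z ^ 4 + (10) * z ^ 5 + (14) * z ^ 6 + (20) * z ^ 7 + (11) * z ^ 8 + (16) * z ^ 9 + (5) * z ^ 10 + (25) * z ^ 11) ((881) * z ^ 0) ((1297) * z ^ 0 + (36) * z ^ 1 + (1) * z ^ 2)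
      (by linear_combination ((52) * z ^ 0 + (-29) * z ^ 1 + (36) * z ^ 2) * hz)
      (by simp [hzdef, map_ofNat]; linear_combination ((-36) * z ^ 0 + (20) * z ^ 1 + (-25) * z ^ 2) * hz)
      (by simp [hzdef, map_ofNat]; ring)

theorem exists_principal_13_79 (K : Type*) [Field K] [NumberField K]
    [IsCyclotomicExtension {13} ℚ K] : HasPrincipalPrime K 79 := by
  have hζ := IsCyclotomicExtension.zeta_spec 13 ℚ K
  have hz := sum_range_eq_zero hζ
  simp only [Finset.sum_range_succ, Finset.sum_range_zero, zero_add] at hz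
  generalize hzdef : hζ.toInteger = z at hz
  refine exists_principal hζ 79 (X - C 64) (monic_X_sub_C _) (irreducible_linear _ _)
      (dvd_cyclotomic_linear _ _ _ (by decide)) ((1) * z ^ 0 + (1) * z ^ 1 + (-1) * z ^ 4) ((24) * z ^ 0 + (-25) * z ^ 1 + (-27) * z ^ 2 + (10) * z ^ 3 + (-3) * z ^ 4 + (-39) * z ^ 5 + (-5) * z ^ 6 + (-2) * z ^ 7 + (-18) * z ^ 8 + (-38) * z ^ 9 + (16) * z ^ 10 + (-35) * z ^ 11)
      ((-19) * z ^ 0 + (21) * z ^ 1 + (22) * z ^ 2 + (-8) * z ^ 3 + (3) * z ^ 4 + (32) * z ^ 5 + (4) * z ^ 6 + (2) * z ^ 7 + (15) * z ^ 8 + (31) * z ^ 9 + (-13) * z ^ 10 + (29) * z ^ 11) ((-212369) * z ^ 0) ((-262143) * z ^ 0 + (-4096) * z ^ 1 + (-64) * z ^ 2 + (-1) * z ^ 3)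
      (by linear_combination ((55) * z ^ 0 + (-54) * z ^ 1 + (51) * z ^ 2 + (-35) * z ^ 3) * hz)
      (by simp [hzdef, map_ofNat]; linear_combination ((-45) * z ^ 0 + (44) * z ^ 1 + (-42) * z ^ 2 + (29) * z ^ 3) * hz)
      (by simp [hzdef, map_ofNat]; ring)

theorem exists_principal_13_131 (K : Type*) [Field K] [NumberField K]
    [IsCyclotomicExtension {13} ℚ K] : HasPrincipalPrime K 131 := by
  have hζ := IsCyclotomicExtension.zeta_spec 13 ℚ K
  have hz := sum_range_eq_zero hζ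
  simp only [Finset.sum_range_succ, Finset.sum_range_zero, zero_add] at hz
  generalize hzdef : hζ.toInteger = z at hz
  refine exists_principal hζ 131 (X - C 80) (monic_X_sub_C _) (irreducible_linear _ _)
      (dvd_cyclotomic_linear _ _ _ (by decide)) ((1) * z ^ 0 + (-1) * z ^ 1 + (-1) * z ^ 3) ((111) * z ^ 0 + (78) * z ^ 1 + (17) * z ^ 2 + (67) * z ^ 3 + (84) * z ^ 4 + (40) * z ^ 5 + (46) * z ^ 6 + (69) * z ^ 7 + (48) * z ^ 8 + (33) * z ^ 9 + (41) * z ^ 10 + (28) * z ^ 11)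
      ((-68) * z ^ 0 + (-47) * z ^ 1 + (-10) * z ^ 2 + (-41) * z ^ 3 + (-51) * z ^ 4 + (-24) * z ^ 5 + (-28) * z ^ 6 + (-42) * z ^ 7 + (-29) * z ^ 8 + (-20) * z ^ 9 + (-25) * z ^ 10 + (-17) * z ^ 11) ((-3909) * z ^ 0) ((-6401) * z ^ 0 + (-80) * z ^ 1 + (-1) * z ^ 2)
      (by linear_combination ((20) * z ^ 0 + (13) * z ^ 1 + (28) * z ^ 2) * hz)
      (by simp [hzdef, map_ofNat]; linear_combination ((-12) * z ^ 0 + (-8) * z ^ 1 + (-17) * z ^ 2) * hz)
      (by simp [hzdef, map_ofNat]; ring)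

theorem exists_principal_13_157 (K : Type*) [Field K] [NumberField K]
    [IsCyclotomicExtension {13} ℚ K] : HasPrincipalPrime K 157 := by
  have hζ := IsCyclotomicExtension.zeta_spec 13 ℚ K
  have hz := sum_range_eq_zero hζ
  simp only [Finset.sum_range_succ, Finset.sum_range_zero, zero_add] at hz
  generalize hzdef : hζ.toInteger = z at hz
  refine exists_principal hζ 157 (X - C 75) (monic_X_sub_C _) (irreducible_linear _ _)
      (dvd_cyclotomic_linear _ _ _ (by decide)) ((1) * z ^ 0 + (-1) * z ^ 1 + (1) * z ^ 2 + (1) * z ^ 4) ((89) * z ^ 0 + (86) * z ^ 1 + (42) * z ^ 2 + (77) * z ^ 3 + (67) * z ^ 4 + (25) * z ^ 5 + (37) * z ^ 6 + (56) * z ^ 7 + (73) * z ^ 8 + (113) * z ^ 9 + (124) * z ^ 10 + (76) * z ^ 11)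
      ((-43) * z ^ 0 + (-41) * z ^ 1 + (-20) * z ^ 2 + (-37) * z ^ 3 + (-32) * z ^ 4 + (-12) * z ^ 5 + (-18) * z ^ 6 + (-27) * z ^ 7 + (-35) * z ^ 8 + (-54) * z ^ 9 + (-59) * z ^ 10 + (-36) * z ^ 11) ((201568) * z ^ 0) ((421949) * z ^ 0 + (5626) * z ^ 1 + (75) * z ^ 2 + (1) * z ^ 3)
      (by linear_combination ((68) * z ^ 0 + (-65) * z ^ 1 + (-48) * z ^ 2 + (-76) * z ^ 3) * hz)
      (by simp [hzdef, map_ofNat]; linear_combination ((-32) * z ^ 0 + (31) * z ^ 1 + (23) * z ^ 2 + (36) * z ^ 3) * hz)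
      (by simp [hzdef, map_ofNat]; ring)

theorem exists_principal_13_3 (K : Type*) [Field K] [NumberField K]
    [IsCyclotomicExtension {13} ℚ K] : HasPrincipalPrime K 3 := by
  have hζ := IsCyclotomicExtension.zeta_spec 13 ℚ K
  have hz := sum_range_eq_zero hζ
  simp only [Finset.sum_range_succ, Finset.sum_range_zero, zero_add] at hz
  generalize hzdef : hζ.toInteger = z at hz
  refine exists_principal hζ 3 (X ^ 3 + C 2 * X + C 2) (by monicity!) irreducible_cubic_three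
      cubic_dvd_cyclotomic_three ((1) * z ^ 0 + (1) * z ^ 1 + (-1) * z ^ 3) ((-1) * z ^ 0 + (-1) * z ^ 2 + (-1) * z ^ 3 + (-2) * z ^ 5 + (-1) * z ^ 7 + (-2) * z ^ 8 + (1) * z ^ 9 + (-3) * z ^ 10)
      ((-2) * z ^ 0 + (-1) * z ^ 1 + (-1) * z ^ 2 + (-2) * z ^ 3 + (-1) * z ^ 4 + (-2) * z ^ 5 + (-2) * z ^ 6 + (-1) * z ^ 7 + (-3) * z ^ 8 + (-1) * z ^ 9 + (-2) * z ^ 10 + (-3) * z ^ 11) ((1) * z ^ 0 + (1) * z ^ 1) ((-1) * z ^ 0)
      (by linear_combination ((4) * z ^ 0 + (-3) * z ^ 1) * hz)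
      (by simp [hzdef, map_ofNat]; linear_combination ((4) * z ^ 0 + (1) * z ^ 1 + (-3) * z ^ 2) * hz)
      (by simp [hzdef, map_ofNat]; ring)

end FermatAgent.RegularInputs
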