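import Mathlib.NumberTheory.NumberField.Cyclotomic.PID
import Mathlib.NumberTheory.NumberField.Cyclotomic.Galois
import Mathlib.Analysis.Real.Pi.Bounds
import Mathlib.Tactic.IntervalCases
import Fermat.Agent.RegularInputs.PrincipalPrimes

/-!
The rings of integers of `ℚ(ζ_7)`, `ℚ(ζ_11)` and `ℚ(ζ_13)` are principal ideal domains.
-/

set_option autoImplicit false

namespace FermatAgent.RegularInputs

open NumberField NumberField.InfinitePlace Module Ideal
open scoped Real Nat

variable {p : ℕ} [hp : Fact p.Prime] (K : Type*) [Field K] [NumberField K]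
  [IsCyclotomicExtension {p} ℚ K]

/-- The Minkowski argument for a cyclotomic field of prime conductor: apart from finitely many
exceptional primes (for which a principal prime must be given) all primes have large norm. -/
theorem isPID_of_certificates (B : ℕ)
    (hB : (4 / π) ^ nrComplexPlaces K *
      ((finrank ℚ K)! / (finrank ℚ K) ^ (finrank ℚ K) * √|discr K|) < B + 1)
    (h : ∀ q f : ℕ, q.Prime → 0 < f → q ^ f ≤ B → q ^ f % p = 1 → HasPrincipalPrime K q) :
    IsPrincipalIdealRing (𝓞 K) := by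
  have : IsGalois ℚ K := IsCyclotomicExtension.isGalois {p} ℚ K
  refine RingOfIntegers.isPrincipalIdealRing_of_isPrincipal_of_lt_or_isPrincipal_of_mem_primesOver_of_mem_Icc
    fun q _ hq ↦ ?_
  have hfl : ⌊(4 / π) ^ nrComplexPlaces K *
      ((finrank ℚ K)! / (finrank ℚ K) ^ (finrank ℚ K) * √|discr K|)⌋₊ < B + 1 :=
    (Nat.floor_lt (by positivity)).mpr (by exact_mod_cast hB)
  have : Fact q.Prime := ⟨hq⟩
  by_cases hqp : q = p
  · subst hqp
    have hζ := IsCyclotomicExtension.zeta_spec q ℚ K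
    have hprime := IsCyclotomicExtension.Rat.isPrime_span_zeta_sub_one' q hζ
    refine ⟨span {hζ.toInteger - 1}, ⟨hprime, ?_⟩, .inr ⟨_, rfl⟩⟩
    have hζ' : IsPrimitiveRoot (IsCyclotomicExtension.zeta q ℚ K) (q ^ (0 + 1)) := by simp [hζ]
    have : IsCyclotomicExtension {q ^ (0 + 1)} ℚ K := by simpa
    exact IsCyclotomicExtension.Rat.liesOver_span_zeta_sub_one q 0 hζ'
  obtain ⟨P, hPp, hPo⟩ := (span {(q : ℤ)}).nonempty_primesOver (S := 𝓞 K)
  by_cases hbig : ⌊(4 / π) ^ nrComplexPlaces K *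
      ((finrank ℚ K)! / (finrank ℚ K) ^ (finrank ℚ K) * √|discr K|)⌋₊ < q ^ P.inertiaDeg ℤ
  · exact ⟨P, ⟨hPp, hPo⟩, .inl hbig⟩
  · have hnd : ¬ q ∣ p := fun hd ↦ hqp ((Nat.prime_dvd_prime_iff_eq hq hp.out).mp hd)
    have hdeg := IsCyclotomicExtension.Rat.inertiaDeg_eq_of_not_dvd q K P hnd
    rw [hdeg] at hbig
    have hne : (q : ZMod p) ≠ 0 := fun h0 ↦
      hqp (((Nat.prime_dvd_prime_iff_eq hp.out hq).mp ((ZMod.natCast_eq_zero_iff q p).mp h0)).symm)
    have hpos : 0 < orderOf (q : ZMod p) :=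
      orderOf_pos_iff.mpr (isOfFinOrder_iff_isUnit.mpr (isUnit_iff_ne_zero.mpr hne))
    have hmod : q ^ orderOf (q : ZMod p) % p = 1 := by
      have h1 : ((q ^ orderOf (q : ZMod p) : ℕ) : ZMod p) = ((1 : ℕ) : ZMod p) := by
        rw [Nat.cast_pow, pow_orderOf_eq_one, Nat.cast_one]
      have h2 := (ZMod.natCast_eq_natCast_iff' _ _ _).mp h1
      rwa [Nat.mod_eq_of_lt hp.out.one_lt] at h2
    obtain ⟨R, hR, hR'⟩ := h q (orderOf (q : ZMod p)) hq hpos (by omega) hmod
    exact ⟨R, hR, .inr hR'⟩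

/-- The Minkowski bound of `ℚ(ζ_p)` in closed form. -/
theorem minkowski_eq :
    (4 / π) ^ nrComplexPlaces K *
      ((finrank ℚ K)! / (finrank ℚ K) ^ (finrank ℚ K) * √|discr K|) =
    (4 / π) ^ ((p - 1) / 2) *
      (((p - 1)! : ℝ) / ((p - 1 : ℕ) : ℝ) ^ (p - 1) * √((p : ℝ) ^ (p - 2))) := by
  rw [IsCyclotomicExtension.Rat.discr_prime p K,
    IsCyclotomicExtension.Rat.finrank p K,
    IsCyclotomicExtension.Rat.nrComplexPlaces_eq_totient_div_two p K,
    Nat.totient_prime hp.out]
  simp [abs_mul, abs_pow]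

theorem minkowski_bound_lt {n r : ℕ} {c : ℝ} {d : ℝ} {B : ℝ} (hc : 0 ≤ c)
    (s : ℝ) (hs0 : 0 ≤ s) (hs : d ≤ s ^ 2)
    (h : (4 / 3.141592) ^ r * ((n ! : ℝ) / c * s) < B) :
    (4 / π) ^ r * ((n ! : ℝ) / c * √d) < B := by
  refine lt_of_le_of_lt ?_ h
  have h1 : 4 / π ≤ 4 / 3.141592 :=
    div_le_div_of_nonneg_left (by norm_num) (by norm_num) Real.pi_gt_d6.le
  have h2 : √d ≤ s := Real.sqrt_le_iff.mpr ⟨hs0, hs⟩
  gcongr

theorem isPID_seven (L : Type*) [Field L] [NumberField L] [IsCyclotomicExtension {7} ℚ L] :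
    IsPrincipalIdealRing (𝓞 L) := by
  have : Fact (Nat.Prime 7) := ⟨by norm_num⟩
  refine isPID_of_certificates (p := 7) L 4 ?_ ?_
  · rw [minkowski_eq (p := 7) L]
    refine minkowski_bound_lt (by positivity) 130 (by norm_num) (by norm_num) ?_
    norm_num [Nat.factorial_succ]
  · intro q f hq hf hle hmod
    have h2 : 1 < q ^ f := Nat.one_lt_pow hf.ne' hq.one_lt
    omega

theorem isPID_eleven (L : Type*) [Field L] [NumberField L] [IsCyclotomicExtension {11} ℚ L] :
    IsPrincipalIdealRing (𝓞 L) := by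
  have : Fact (Nat.Prime 11) := ⟨by norm_num⟩
  refine isPID_of_certificates (p := 11) L 59 ?_ ?_
  · rw [minkowski_eq (p := 11) L]
    refine minkowski_bound_lt (by positivity) 48559 (by norm_num) (by norm_num) ?_
    norm_num [Nat.factorial_succ]
  · intro q f hq hf hle hmod
    have hq' : (q ^ f).minFac = q := hq.pow_minFac hf.ne'
    have h2 : 1 < q ^ f := Nat.one_lt_pow hf.ne' hq.one_lt
    have hcases : q = 23 ∨ q ^ f ∈ [12, 34, 45, 56] := by
      have : q ^ f = 23 ∨ q ^ f ∈ [12, 34, 45, 56] := by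
        simp only [List.mem_cons, List.not_mem_nil, or_false]
        omega
      rcases this with h | h
      · left; rw [← hq', h]; norm_num
      · exact .inr h
    rcases hcases with rfl | h
    · exact exists_principal_11_23 L
    · have hf6 : f < 6 := (Nat.pow_lt_pow_iff_right (a := 2) one_lt_two).mp
        ((Nat.pow_le_pow_left hq.two_le f).trans_lt (by norm_num; omega))
      simp only [List.mem_cons, List.not_mem_nil, or_false] at h
      rcases h with h | h | h | h <;> (rw [h] at hq'; norm_num at hq'; subst hq') <;>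
        interval_cases f <;> omega

theorem isPID_thirteen (L : Type*) [Field L] [NumberField L] [IsCyclotomicExtension {13} ℚ L] :
    IsPrincipalIdealRing (𝓞 L) := by
  have : Fact (Nat.Prime 13) := ⟨by norm_num⟩
  refine isPID_of_certificates (p := 13) L 306 ?_ ?_
  · rw [minkowski_eq (p := 13) L]
    refine minkowski_bound_lt (by positivity) 1338716 (by norm_num) (by norm_num) ?_
    norm_num [Nat.factorial_succ]
  · intro q f hq hf hle hmod
    have hq' : (q ^ f).minFac = q := hq.pow_minFac hf.ne'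
    have h2 : 1 < q ^ f := Nat.one_lt_pow hf.ne' hq.one_lt
    have hf9 : f < 9 := (Nat.pow_lt_pow_iff_right (a := 2) one_lt_two).mp
      ((Nat.pow_le_pow_left hq.two_le f).trans_lt (by norm_num; omega))
    obtain ⟨k, hk⟩ : ∃ k, q ^ f = 13 * k + 1 := ⟨q ^ f / 13, by omega⟩
    have hk23 : k ≤ 23 := by omega
    rw [hk] at hq' h2
    interval_cases k <;> (try norm_num at h2) <;> norm_num at hq' <;> subst hq' <;>
      norm_num at hk <;>
      first
      | exact exists_principal_13_3 L
      | exact exists_principal_13_53 L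
      | exact exists_principal_13_79 L
      | exact exists_principal_13_131 L
      | exact exists_principal_13_157 L
      | (interval_cases f <;> omega)

end FermatAgent.RegularInputs
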