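import Mathlib.NumberTheory.NumberField.Cyclotomic.PID
import Fermat.Agent.RegularInputs.PID
import Fermat.Agent.RegularInputs.KummerUnit

/-!
The two inputs of Kummer's descent for the exponents 5, 7, 11 and 13.
-/

set_option autoImplicit false

namespace FermatAgent.RegularInputs

open NumberField

theorem fact_prime_five' : Fact (Nat.Prime 5) := ⟨Nat.prime_five⟩

theorem fact_prime_seven' : Fact (Nat.Prime 7) := ⟨by norm_num⟩

attribute [local instance] fact_prime_five' fact_prime_seven' fact_prime_11 fact_prime_13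

theorem kummerUnitLemma_five (L : Type*) [Field L] [NumberField L]
    [IsCyclotomicExtension {5} ℚ L] : Regular.KummerUnitLemma 5 (𝓞 L) :=
  kummerUnitLemma_of_certificate (p := 5) 1 rfl ![![3, 4, 3]] ![![1, 0], ![3, 4], ![0, 0]]
    (by decide +kernel) (by decide +kernel)

theorem kummerUnitLemma_seven (L : Type*) [Field L] [NumberField L]
    [IsCyclotomicExtension {7} ℚ L] : Regular.KummerUnitLemma 7 (𝓞 L) :=
  kummerUnitLemma_of_certificate (p := 7) 2 rfl ![![4, 2, 6, 4, 5], ![1, 3, 2, 4, 0]]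
    ![![1, 0, 0], ![3, 6, 1], ![0, 0, 0], ![1, 6, 3], ![0, 0, 0]]
    (by decide +kernel) (by decide +kernel)

theorem kummerUnitLemma_eleven (L : Type*) [Field L] [NumberField L]
    [IsCyclotomicExtension {11} ℚ L] : Regular.KummerUnitLemma 11 (𝓞 L) :=
  kummerUnitLemma_of_certificate (p := 11) 4 rfl
    ![![6, 3, 4, 9, 1, 5, 3, 4, 9], ![1, 8, 7, 5, 0, 2, 9, 5, 3],
      ![7, 4, 9, 9, 4, 2, 10, 4, 0], ![2, 2, 10, 2, 3, 6, 0, 0, 0]]
    ![![1, 0, 0, 0, 0], ![0, 6, 7, 10, 4], ![0, 0, 0, 0, 0], ![9, 9, 8, 3, 9], ![0, 0, 0, 0, 0],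
      ![4, 6, 6, 3, 5], ![0, 0, 0, 0, 0], ![9, 1, 5, 4, 9], ![0, 0, 0, 0, 0]]
    (by decide +kernel) (by decide +kernel)

theorem kummerUnitLemma_thirteen (L : Type*) [Field L] [NumberField L]
    [IsCyclotomicExtension {13} ℚ L] : Regular.KummerUnitLemma 13 (𝓞 L) :=
  kummerUnitLemma_of_certificate (p := 13) 5 rfl
    ![![7, 10, 8, 9, 2, 12, 7, 3, 5, 4, 11], ![1, 5, 4, 3, 0, 12, 1, 8, 9, 10, 0],
      ![8, 11, 1, 9, 12, 2, 12, 3, 9, 0, 0], ![2, 2, 12, 5, 6, 2, 0, 2, 11, 10, 8],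
      ![9, 4, 11, 11, 4, 10, 7, 0, 0, 0, 0]]
    ![![1, 0, 0, 0, 0, 0], ![10, 7, 6, 8, 12, 9], ![0, 0, 0, 0, 0, 0], ![9, 6, 1, 4, 7, 5],
      ![0, 0, 0, 0, 0, 0], ![6, 1, 3, 8, 7, 4], ![0, 0, 0, 0, 0, 0], ![12, 12, 12, 10, 4, 10],
      ![0, 0, 0, 0, 0, 0], ![4, 6, 7, 11, 5, 2], ![0, 0, 0, 0, 0, 0]]
    (by decide +kernel) (by decide +kernel)

theorem regularInputs_five : Regular.RegularInputs 5 :=
  have : IsCyclotomicExtension {5} ℚ (CyclotomicField 5 ℚ) :=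
    CyclotomicField.isCyclotomicExtension 5 ℚ
  ⟨IsCyclotomicExtension.Rat.five_pid _, kummerUnitLemma_five _⟩

theorem regularInputs_seven : Regular.RegularInputs 7 :=
  have : IsCyclotomicExtension {7} ℚ (CyclotomicField 7 ℚ) :=
    CyclotomicField.isCyclotomicExtension 7 ℚ
  ⟨isPID_seven _, kummerUnitLemma_seven _⟩

theorem regularInputs_eleven : Regular.RegularInputs 11 :=
  have : IsCyclotomicExtension {11} ℚ (CyclotomicField 11 ℚ) :=
    CyclotomicField.isCyclotomicExtension 11 ℚ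
  ⟨isPID_eleven _, kummerUnitLemma_eleven _⟩

theorem regularInputs_thirteen : Regular.RegularInputs 13 :=
  have : IsCyclotomicExtension {13} ℚ (CyclotomicField 13 ℚ) :=
    CyclotomicField.isCyclotomicExtension 13 ℚ
  ⟨isPID_thirteen _, kummerUnitLemma_thirteen _⟩

end FermatAgent.RegularInputs
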